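import Fermat.Agent.SchinzelTijdeman.Main
import Fermat.Agent.BakerExplicit.Superelliptic
import Mathlib.NumberTheory.Multiplicity
import Mathlib.RingTheory.RootsOfUnity.Complex
import Mathlib.FieldTheory.Finite.Basic

/-!
# Values `e w ^ q` of a polynomial, and the splitting of `1 + x + ⋯ + x ^ (n - 1)`

A polynomial with two simple roots takes values `e w ^ q`, `q ≥ 3`, at finitely many integers only,
all exponents at once. Two factors of a power sharing at most one prime `p`, to the first power,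
are powers up to that prime.
-/

set_option autoImplicit false

noncomputable section

namespace FA.ShoreyTijdeman

open Polynomial Finset

/-- **Values `e w ^ q`, all `q ≥ 3` at once.** -/
theorem power_values_finite {f : ℤ[X]} {α : Fin 2 → ℂ} (hinj : Function.Injective α)
    (hα : ∀ i, aeval (α i) f = 0) (hα' : ∀ i, aeval (α i) f.derivative ≠ 0) {e : ℤ} (he : e ≠ 0) :
    {z : ℤ | ∃ (w : ℤ) (q : ℕ), 3 ≤ q ∧ e * w ^ q = f.eval z}.Finite := by
  classical
  obtain ⟨M, hM⟩ := SchinzelTijdeman.exponent_bounded (fun h => by simpa using hinj h)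
    (hα 0) (hα 1) he
  have hdeg : 0 < f.natDegree :=
    BakerExplicit.Superelliptic.natDegree_pos_of_root (hα' 0)
  obtain ⟨k, hk⟩ : ∃ k : ℕ, ∀ i, (f.coeff i).natAbs ≤ 2 ^ k := by
    refine ⟨∑ i ∈ f.support, (f.coeff i).natAbs, fun i => ?_⟩
    refine le_trans ?_ Nat.lt_two_pow_self.le
    rcases eq_or_ne (f.coeff i) 0 with h | h
    · simp [h]
    · exact single_le_sum (f := fun j => (f.coeff j).natAbs) (fun j _ => Nat.zero_le _)
        (mem_support_iff.2 h)
  set k' := k + e.natAbs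
  have hk' : ∀ i, (f.coeff i).natAbs ≤ 2 ^ k' := fun i =>
    (hk i).trans (Nat.pow_le_pow_right two_pos (Nat.le_add_right _ _))
  have hek : e.natAbs ≤ 2 ^ k' := (Nat.le_add_left _ _).trans Nat.lt_two_pow_self.le
  set B := ∑ q ∈ range (M + 1), 2 ^ BakerExplicit.Superelliptic.powerBound f.natDegree k' q
  have hsmall : (⋃ t ∈ Icc (-(e.natAbs : ℤ)) e.natAbs, {z : ℤ | f.eval z = t}).Finite :=
    (finite_toSet _).biUnion fun t _ => by
      refine (finite_setOfPred_isRoot (p := f - C t) fun h => ?_).subset fun z hz => ?_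
      · rw [sub_eq_zero.1 h, natDegree_C] at hdeg
        exact lt_irrefl 0 hdeg
      · show IsRoot (f - C t) z
        rw [IsRoot.def, eval_sub, eval_C, show f.eval z = t from hz, sub_self]
  refine (hsmall.union (Set.finite_Icc (-(B : ℤ)) B)).subset ?_
  rintro z ⟨w, q, hq, hw⟩
  rcases lt_or_ge w.natAbs 2 with hw2 | hw2
  · refine Or.inl (Set.mem_iUnion₂.2 ⟨f.eval z, ?_, rfl⟩)
    have h1 : (f.eval z).natAbs ≤ e.natAbs := by
      rw [← hw, Int.natAbs_mul, Int.natAbs_pow]
      exact (Nat.mul_le_mul_left _ (pow_le_one₀ (Nat.zero_le _) (by omega))).trans (mul_one _).le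
    rw [mem_Icc]
    constructor <;> omega
  · refine Or.inr ?_
    have hqM : q ≤ M := hM z w q (by rw [Int.abs_eq_natAbs]; omega) hw
    have h1 := (BakerExplicit.Superelliptic.power_bound le_rfl hk' hq he hek hw hinj hα hα').1
    have h2 : z.natAbs ≤ B := h1.le.trans (single_le_sum
      (f := fun i => 2 ^ BakerExplicit.Superelliptic.powerBound f.natDegree k' i)
      (fun _ _ => Nat.zero_le _) (mem_range.2 (by omega)))
    constructor <;> omega

/-- Two factors of a power sharing only the simple prime `p` of the first. -/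
theorem eq_pow_or_prime_mul_pow {G H y p q : ℕ} (hp : p.Prime) (hp2 : ¬ p ^ 2 ∣ G)
    (hcom : ∀ l : ℕ, l.Prime → l ∣ G → l ∣ H → l = p) (h : G * H = y ^ q) :
    ∃ w, G = w ^ q ∨ G = p * w ^ q := by
  by_cases hG : p ∣ G
  · obtain ⟨G₁, rfl⟩ := hG
    obtain ⟨d, hd⟩ := exists_eq_pow_of_mul_eq_pow (a := G₁) (b := p * H) (c := y) (k := q)
      (Nat.isUnit_iff.2 (Nat.coprime_of_dvd fun l hl h1 h2 => by
        rcases (Nat.Prime.dvd_mul hl).1 h2 with h3 | h3
        · rw [(Nat.prime_dvd_prime_iff_eq hl hp).1 h3] at h1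
          exact hp2 (by rw [sq]; exact Nat.mul_dvd_mul_left p h1)
        · have h4 := hcom l hl (h1.trans (dvd_mul_left _ _)) h3
          rw [h4] at h1
          exact hp2 (by rw [sq]; exact Nat.mul_dvd_mul_left p h1)))
      (by rw [← h]; ring)
    exact ⟨d, Or.inr (by rw [hd])⟩
  · obtain ⟨d, hd⟩ := exists_eq_pow_of_mul_eq_pow (a := G) (b := H) (c := y) (k := q)
      (Nat.isUnit_iff.2 (Nat.coprime_of_dvd fun l hl h1 h2 => hG (hcom l hl h1 h2 ▸ h1))) h
    exact ⟨d, Or.inl hd⟩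

/-- `1 + x + ⋯ + x ^ (k m - 1)` splits. -/
theorem geom_split (x k m : ℕ) :
    ∑ i ∈ range (k * m), x ^ i =
      (∑ i ∈ range k, (x ^ m) ^ i) * ∑ i ∈ range m, x ^ i := by
  induction k with
  | zero => simp
  | succ k ih =>
    rw [Nat.succ_mul, sum_range_add, ih, sum_range_succ, add_mul]
    congr 1
    rw [mul_sum, ← pow_mul, mul_comm m k]
    exact sum_congr rfl fun i _ => pow_add _ _ _

/-- A prime common to both factors divides `z - 1`, so the length. -/
theorem common_prime_dvd {x k m l : ℕ} (hl : l.Prime)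
    (h2 : l ∣ ∑ i ∈ range m, x ^ i) : ((x : ZMod l) ^ m = 1) ∧
      ((∑ i ∈ range k, (x ^ m) ^ i : ℕ) : ZMod l) = (k : ZMod l) := by
  have := Fact.mk hl
  have h1 : (x : ZMod l) ^ m = 1 := by
    rw [← sub_eq_zero, ← geom_sum_mul,
      show (∑ i ∈ range m, (x : ZMod l) ^ i) = ((∑ i ∈ range m, x ^ i : ℕ) : ZMod l) by
        push_cast; rfl,
      (ZMod.natCast_eq_zero_iff _ _).2 h2, zero_mul]
  refine ⟨h1, ?_⟩
  push_cast
  simp [h1]

/-- An odd prime divides its geometric sum to the first power at most. -/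
theorem sq_not_dvd_geom {p : ℕ} (hp : p.Prime) (hodd : Odd p) (z : ℕ) :
    ¬ p ^ 2 ∣ ∑ i ∈ range p, z ^ i := by
  have := Fact.mk hp
  intro h
  have hpd : p ∣ ∑ i ∈ range p, z ^ i := (dvd_pow_self p two_ne_zero).trans h
  have hz : (z : ZMod p) = 1 := by
    by_contra hz
    have h1 : ((∑ i ∈ range p, z ^ i : ℕ) : ZMod p) = 0 :=
      (ZMod.natCast_eq_zero_iff _ _).2 hpd
    push_cast at h1
    have h2 := geom_sum_mul (z : ZMod p) p
    rw [h1, zero_mul, ZMod.pow_card, eq_comm, sub_eq_zero] at h2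
    exact hz h2
  obtain ⟨b, hb⟩ : (p : ℤ) ∣ (z : ℤ) - 1 := by
    rw [← ZMod.intCast_zmod_eq_zero_iff_dvd]
    push_cast
    rw [hz, sub_self]
  have h2 := odd_sq_dvd_geom_sum₂_sub (R := ℤ) (a := 1) (b := b) hodd
  simp only [one_pow, mul_one] at h2
  rw [← hb, add_sub_cancel] at h2
  have h3 : ((p : ℤ)) ^ 2 ∣ ∑ i ∈ range p, (z : ℤ) ^ i := by exact_mod_cast h
  have h4 : ((p ^ 2 : ℕ) : ℤ) ∣ (p : ℕ) := by
    push_cast
    have := dvd_sub h3 h2
    rwa [sub_sub_cancel] at this
  have h5 := Nat.le_of_dvd hp.pos (Int.natCast_dvd_natCast.1 h4)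
  nlinarith [hp.two_le]

end FA.ShoreyTijdeman

end
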