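import Fermat.Agent.ShoreyTijdeman.Split
import Fermat.Agent.SquareSequences.Ljunggren
import Fermat.Agent.RecurrencePowers.Finite

/-!
# The equation of Nagell and Ljunggren with a given divisor of the length

With `n = p m` and `z = x ^ m` the sum is `G (z) · H`, and `G (z)` is `w ^ q` or `p w ^ q`. For
`4 ∣ n` the factor `z ^ 2 + 1` takes the place of `G (z)`.
-/

set_option autoImplicit false

noncomputable section

namespace FA.ShoreyTijdeman

open Polynomial Finset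

/-- Solutions of `1 + x + ⋯ + x ^ (n - 1) = y ^ q` whose `x ^ (n / p)` lies in a finite set. -/
theorem finite_of_bounded {p : ℕ} (hp : 3 ≤ p) {Z : Set ℤ} (hZ : Z.Finite)
    (key : ∀ x m y q : ℕ, 2 ≤ x → 0 < m → 3 ≤ q → Odd q →
      ∑ i ∈ range (p * m), x ^ i = y ^ q → ((x ^ m : ℕ) : ℤ) ∈ Z) :
    {s : ℕ × ℕ × ℕ × ℕ | 2 ≤ s.1 ∧ 0 < s.2.1 ∧ p ∣ s.2.1 ∧ 2 ≤ s.2.2.2 ∧
      ∑ i ∈ range s.2.1, s.1 ^ i = s.2.2.1 ^ s.2.2.2}.Finite := by
  obtain ⟨B, hB⟩ := (hZ.image Int.natAbs).bddAbove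
  set C := B + p * B + 7
  set S := ∑ i ∈ range C, C ^ i
  refine ((Set.finite_Iic C).prod ((Set.finite_Iic C).prod
    ((Set.finite_Iic S).prod (Set.finite_Iic S)))).subset ?_
  rintro ⟨x, n, y, q⟩ ⟨hx, hn, ⟨m, hm⟩, hq, he⟩
  dsimp only at hx hn hm hq he
  have hm0 : 0 < m := Nat.pos_of_ne_zero fun h => by simp [h] at hm; omega
  have hn3 : 3 ≤ n := by rw [hm]; exact hp.trans (Nat.le_mul_of_pos_right _ hm0)
  have hbound : x ≤ C ∧ n ≤ C := by
    rcases Nat.even_or_odd q with ⟨t, ht⟩ | hodd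
    · rcases SquareSequences.geomSum_eq_sq (y := y ^ t) hx hn3
        (by rw [he, ← pow_mul, ht, mul_two]) with ⟨rfl, rfl, -⟩ | ⟨rfl, rfl, -⟩ <;>
        constructor <;> omega
    · have h1 := hB ⟨_, key x m y q hx hm0 (by obtain ⟨t, rfl⟩ := hodd; omega) hodd (hm ▸ he), rfl⟩
      rw [Int.natAbs_natCast] at h1
      have h2 : x ≤ B := (Nat.le_self_pow hm0.ne' x).trans h1
      have h3 : m ≤ B := (Nat.lt_two_pow_self.le.trans (Nat.pow_le_pow_left hx m)).trans h1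
      refine ⟨by omega, ?_⟩
      have := Nat.mul_le_mul_left p h3
      omega
  have hS : y ^ q ≤ S := by
    rw [← he]
    exact (sum_le_sum fun i _ => Nat.pow_le_pow_left hbound.1 i).trans
      (sum_le_sum_of_subset (range_subset_range.2 hbound.2))
  have hy : 2 ≤ y := by
    by_contra! hy
    have h1 : y ^ q ≤ 1 := pow_le_one₀ (Nat.zero_le _) (by omega)
    have h2 : ∑ i ∈ range 2, x ^ i ≤ ∑ i ∈ range n, x ^ i :=
      sum_le_sum_of_subset (range_subset_range.2 (by omega))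
    simp only [sum_range_succ, sum_range_zero, pow_zero, pow_one] at h2
    omega
  exact ⟨hbound.1, hbound.2, (Nat.le_self_pow (by omega) y).trans hS,
    (Nat.lt_two_pow_self.le.trans (Nat.pow_le_pow_left hy q)).trans hS⟩

/-- **An odd prime dividing the length.** -/
theorem odd_prime_finite {p : ℕ} (hp : p.Prime) (hodd : Odd p) :
    {s : ℕ × ℕ × ℕ × ℕ | 2 ≤ s.1 ∧ 0 < s.2.1 ∧ p ∣ s.2.1 ∧ 2 ≤ s.2.2.2 ∧
      ∑ i ∈ range s.2.1, s.1 ^ i = s.2.2.1 ^ s.2.2.2}.Finite := by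
  have hp3 : 3 ≤ p := by have := hp.two_le; rcases hodd with ⟨t, rfl⟩; omega
  set f : ℤ[X] := ∑ i ∈ range p, X ^ i with hf
  have hζ := Complex.isPrimitiveRoot_exp p hp.ne_zero
  set ζ := Complex.exp (2 * Real.pi * Complex.I / p)
  have hζ1 : ζ ≠ 1 := hζ.ne_one (by omega)
  have hζ2 : ζ ^ 2 ≠ 1 := fun h => by
    have := Nat.le_of_dvd two_pos ((hζ.pow_eq_one_iff_dvd 2).1 h)
    omega
  have hζ0 : ζ ≠ 0 := hζ.ne_zero hp.ne_zero
  have hmul : f * (X - 1) = X ^ p - 1 := geom_sum_mul X p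
  have hroot : ∀ r : ℂ, r ^ p = 1 → r ≠ 1 → r ≠ 0 →
      aeval r f = 0 ∧ aeval r f.derivative ≠ 0 := fun r hr hr1 hr0 => by
    have h1 := congrArg (aeval r) hmul
    simp only [map_mul, map_sub, map_pow, aeval_X, map_one, hr, sub_self, mul_eq_zero] at h1
    have h0 : aeval r f = 0 := h1.resolve_right (sub_ne_zero.2 hr1)
    refine ⟨h0, fun hd => ?_⟩
    have h2 := congrArg (fun g : ℤ[X] => aeval r g.derivative) hmul
    simp [derivative_mul, h0, hd, derivative_X_pow, hr0, hp.ne_zero] at h2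
  have hinj : Function.Injective ![ζ, ζ ^ 2] := fun i j h => by
    have hne : ζ ≠ ζ ^ 2 := fun e => hζ1 (mul_left_cancel₀ hζ0 (by linear_combination -e))
    fin_cases i <;> fin_cases j <;> simp_all
  have hr : ∀ i, aeval (![ζ, ζ ^ 2] i) f = 0 ∧ aeval (![ζ, ζ ^ 2] i) f.derivative ≠ 0 :=
    Fin.forall_fin_two.2 ⟨hroot ζ hζ.pow_eq_one hζ1 hζ0,
      hroot (ζ ^ 2) (by rw [← pow_mul, mul_comm, pow_mul, hζ.pow_eq_one, one_pow]) hζ2
        (pow_ne_zero 2 hζ0)⟩
  have hZ := (power_values_finite hinj (fun i => (hr i).1) (fun i => (hr i).2)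
    (one_ne_zero (α := ℤ))).union (power_values_finite hinj (fun i => (hr i).1)
      (fun i => (hr i).2) (Int.natCast_ne_zero.2 hp.ne_zero))
  refine finite_of_bounded hp3 hZ fun x m y q _ _ hq _ he => ?_
  rw [geom_split] at he
  have hev : f.eval ((x ^ m : ℕ) : ℤ) = ((∑ i ∈ range p, (x ^ m) ^ i : ℕ) : ℤ) := by
    simp [hf, eval_finsetSum]
  obtain ⟨w, hw⟩ := eq_pow_or_prime_mul_pow hp (sq_not_dvd_geom hp hodd (x ^ m))
    (fun l hl h1 h2 => by
      have := Fact.mk hl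
      have h3 := (common_prime_dvd (k := p) hl h2).2
      rw [(ZMod.natCast_eq_zero_iff _ _).2 h1, eq_comm, ZMod.natCast_eq_zero_iff] at h3
      exact (Nat.prime_dvd_prime_iff_eq hl hp).1 h3) he
  rcases hw with hw | hw
  · exact Or.inl ⟨w, q, hq, by rw [hev, hw]; push_cast; ring⟩
  · exact Or.inr ⟨w, q, hq, by rw [hev, hw]; push_cast; ring⟩

/-- **A length divisible by four.** -/
theorem four_finite :
    {s : ℕ × ℕ × ℕ × ℕ | 2 ≤ s.1 ∧ 0 < s.2.1 ∧ 4 ∣ s.2.1 ∧ 2 ≤ s.2.2.2 ∧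
      ∑ i ∈ range s.2.1, s.1 ^ i = s.2.2.1 ^ s.2.2.2}.Finite := by
  set f : ℤ[X] := X ^ 2 + 1 with hf
  have hinj : Function.Injective ![Complex.I, -Complex.I] := fun i j h => by
    have hne : Complex.I ≠ -Complex.I := fun e => Complex.I_ne_zero (by linear_combination e / 2)
    fin_cases i <;> fin_cases j <;> simp_all
  have hr : ∀ i, aeval (![Complex.I, -Complex.I] i) f = 0 ∧
      aeval (![Complex.I, -Complex.I] i) f.derivative ≠ 0 :=
    Fin.forall_fin_two.2 ⟨by simp [hf, map_ofNat], by simp [hf, map_ofNat]⟩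
  have hZ := (power_values_finite hinj (fun i => (hr i).1) (fun i => (hr i).2)
    (one_ne_zero (α := ℤ))).union (power_values_finite hinj (fun i => (hr i).1)
      (fun i => (hr i).2) (two_ne_zero (α := ℤ)))
  refine finite_of_bounded (p := 4) (by omega) hZ fun x m y q _ _ hq _ he => ?_
  rw [geom_split] at he
  set z := x ^ m with hz
  have hev : f.eval ((z : ℕ) : ℤ) = ((z ^ 2 + 1 : ℕ) : ℤ) := by simp [hf]
  have hfac : ∑ i ∈ range 4, z ^ i = (z ^ 2 + 1) * (z + 1) := by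
    simp [sum_range_succ]; ring
  rw [hfac, mul_assoc] at he
  obtain ⟨w, hw⟩ := eq_pow_or_prime_mul_pow Nat.prime_two (G := z ^ 2 + 1)
    (fun h => by
      have h4 : ((z ^ 2 + 1 : ℕ) : ZMod 4) = 0 := (ZMod.natCast_eq_zero_iff _ _).2 h
      push_cast at h4
      revert h4
      generalize (z : ZMod 4) = t
      revert t
      decide)
    (fun l hl h1 h2 => by
      have := Fact.mk hl
      have h0 : (z : ZMod l) ^ 2 + 1 = 0 := by
        rw [← (ZMod.natCast_eq_zero_iff _ _).2 h1]; push_cast; ring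
      have h2' : (z : ZMod l) ^ 2 = 1 := by
        rcases (Nat.Prime.dvd_mul hl).1 h2 with h3 | h3
        · have h4 : (z : ZMod l) + 1 = 0 := by
            rw [← (ZMod.natCast_eq_zero_iff _ _).2 h3]; push_cast; ring
          rw [eq_neg_of_add_eq_zero_left h4, neg_one_sq]
        · have h4 := (common_prime_dvd (k := 1) hl h3).1
          rw [hz, Nat.cast_pow, h4, one_pow]
      refine (Nat.prime_dvd_prime_iff_eq hl Nat.prime_two).1
        ((ZMod.natCast_eq_zero_iff _ _).1 ?_)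
      rw [h2'] at h0
      push_cast
      linear_combination h0) he
  rcases hw with hw | hw
  · exact Or.inl ⟨w, q, hq, by rw [hev, hw]; push_cast; ring⟩
  · exact Or.inr ⟨w, q, hq, by rw [hev, hw]; push_cast; ring⟩

/-- **Any divisor of the length, at least three.** -/
theorem divisor_finite {k : ℕ} (hk : 3 ≤ k) :
    {s : ℕ × ℕ × ℕ × ℕ | 2 ≤ s.1 ∧ 0 < s.2.1 ∧ k ∣ s.2.1 ∧ 2 ≤ s.2.2.2 ∧
      ∑ i ∈ range s.2.1, s.1 ^ i = s.2.2.1 ^ s.2.2.2}.Finite := by
  rcases Nat.four_dvd_or_exists_odd_prime_and_dvd_of_two_lt (show 2 < k by omega) with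
    h | ⟨p, hp, hpk, hodd⟩
  · exact four_finite.subset fun s ⟨h1, h2, h3, h4, h5⟩ => ⟨h1, h2, h.trans h3, h4, h5⟩
  · exact (odd_prime_finite hp hodd).subset
      fun s ⟨h1, h2, h3, h4, h5⟩ => ⟨h1, h2, hpk.trans h3, h4, h5⟩

/-- **A given base.** -/
theorem base_finite {x : ℕ} (hx : 2 ≤ x) :
    {s : ℕ × ℕ × ℕ | 2 ≤ s.1 ∧ 2 ≤ s.2.2 ∧ ∑ i ∈ range s.1, x ^ i = s.2.1 ^ s.2.2}.Finite := by
  obtain ⟨N, hN⟩ := (RecurrencePowers.repdigit_finite (d := 1) hx one_ne_zero).bddAbove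
  set S := ∑ i ∈ range N, x ^ i
  refine ((Set.finite_Iic N).prod ((Set.finite_Iic S).prod (Set.finite_Iic S))).subset ?_
  rintro ⟨n, y, q⟩ ⟨hn, hq, he⟩
  dsimp only at hn hq he
  have hnN : n ≤ N := hN ⟨y, q, hq, by rw [one_mul]; exact he⟩
  have hS : y ^ q ≤ S := he ▸ sum_le_sum_of_subset (range_subset_range.2 hnN)
  have hy : 2 ≤ y := by
    by_contra! hy
    have h1 : y ^ q ≤ 1 := pow_le_one₀ (Nat.zero_le _) (by omega)
    have h2 : ∑ i ∈ range 2, x ^ i ≤ ∑ i ∈ range n, x ^ i :=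
      sum_le_sum_of_subset (range_subset_range.2 hn)
    simp only [sum_range_succ, sum_range_zero, pow_zero, pow_one] at h2
    omega
  exact ⟨hnN, (Nat.le_self_pow (by omega) y).trans hS,
    (Nat.lt_two_pow_self.le.trans (Nat.pow_le_pow_left hy q)).trans hS⟩

end FA.ShoreyTijdeman

end
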